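import Mathlib

/-!
# S43 / Import / Hensel : the local structure at a Taylor-Wiles prime (pure algebra)

`A` a commutative local ring, `Φ = diag(α, β)` with `α, β, α - β` units, `Σ ≡ 1` modulo the maximal ideal,
`Φ Σ = Σ ^ s Φ` with `s ≡ 1` modulo the maximal ideal.  Then `Σ` is diagonal, `Σ = diag(δ, δ')`,
`δ ^ s = δ`, `δ' ^ s = δ'`.
-/

set_option autoImplicit false

namespace Fermat.Agent.S43.Import.Hensel

open Matrix IsLocalRing

section Ring

variable {R : Type*} [Ring R]

theorem pow_mul_of_mul_eq (D B : R) (h1 : D * B = B) (n : ℕ) : D ^ n * B = B := by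
  induction n with
  | zero => simp
  | succ n ih => rw [pow_succ, mul_assoc, h1, ih]

/-- `(D + B) ^ n = D ^ n + n B` if `D B = B D = B`, `B ^ 2 = 0`. -/
theorem add_pow_of_absorb (D B : R) (h1 : D * B = B) (h2 : B * D = B) (h3 : B * B = 0) (n : ℕ) :
    (D + B) ^ n = D ^ n + n • B := by
  induction n with
  | zero => simp
  | succ n ih =>
    rw [pow_succ, ih, add_mul, mul_add, mul_add, pow_mul_of_mul_eq D B h1, smul_mul_assoc,
      smul_mul_assoc, h2, h3, smul_zero, add_zero, pow_succ, succ_nsmul]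
    abel

end Ring

variable {A : Type*} [CommRing A]

/-- the computation in a ring where `m I = 0`. -/
theorem offdiag_pow (a b c d : A) (hab : a * b = 0) (hac : a * c = 0) (hdb : d * b = 0)
    (hdc : d * c = 0) (hbc : b * c = 0) (s : ℕ) :
    ((!![1 + a, b; c, 1 + d] : Matrix (Fin 2) (Fin 2) A) ^ s) 0 1 = s * b ∧
    ((!![1 + a, b; c, 1 + d] : Matrix (Fin 2) (Fin 2) A) ^ s) 1 0 = s * c := by
  have hdec : (!![1 + a, b; c, 1 + d] : Matrix (Fin 2) (Fin 2) A) =
      Matrix.diagonal ![1 + a, 1 + d] + !![0, b; c, 0] := by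
    ext i j
    fin_cases i <;> fin_cases j <;> simp
  have h1 : Matrix.diagonal ![1 + a, 1 + d] * (!![0, b; c, 0] : Matrix (Fin 2) (Fin 2) A) =
      !![0, b; c, 0] := by
    ext i j
    fin_cases i <;> fin_cases j <;> simp [Matrix.mul_apply, Fin.sum_univ_two, add_mul, hab, hdc]
  have h2 : (!![0, b; c, 0] : Matrix (Fin 2) (Fin 2) A) * Matrix.diagonal ![1 + a, 1 + d] =
      !![0, b; c, 0] := by
    ext i j
    fin_cases i <;> fin_cases j <;>
      simp [Matrix.mul_apply, Fin.sum_univ_two, mul_add, mul_comm b d, mul_comm c a, hdb, hac]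
  have h3 : (!![0, b; c, 0] : Matrix (Fin 2) (Fin 2) A) * !![0, b; c, 0] = 0 := by
    ext i j
    fin_cases i <;> fin_cases j <;> simp [Matrix.mul_apply, Fin.sum_univ_two, hbc, mul_comm c b]
  rw [hdec, add_pow_of_absorb _ _ h1 h2 h3, Matrix.diagonal_pow]
  constructor <;> simp

/-- matrix entries of a `2 × 2` matrix. -/
theorem eq_of_entries (M : Matrix (Fin 2) (Fin 2) A) :
    M = !![1 + (M 0 0 - 1), M 0 1; M 1 0, 1 + (M 1 1 - 1)] := by
  ext i j
  fin_cases i <;> fin_cases j <;> simp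

variable [IsLocalRing A]

/-- **Hensel at a Taylor-Wiles prime**: `Σ` is diagonal in an eigenbasis of `Φ`. -/
theorem offdiag_eq_zero (α β : A) (hαβ : IsUnit (α - β))
    (Sg : Matrix (Fin 2) (Fin 2) A) (h00 : Sg 0 0 - 1 ∈ maximalIdeal A)
    (h01 : Sg 0 1 ∈ maximalIdeal A)
    (h11 : Sg 1 1 - 1 ∈ maximalIdeal A) (s : ℕ) (hs : (s : A) - 1 ∈ maximalIdeal A)
    (h : Matrix.diagonal ![α, β] * Sg = Sg ^ s * Matrix.diagonal ![α, β]) :
    Sg 0 1 = 0 ∧ Sg 1 0 = 0 := by
  set a := Sg 0 0 - 1 with ha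
  set b := Sg 0 1 with hb
  set c := Sg 1 0 with hc
  set d := Sg 1 1 - 1 with hd
  set I : Ideal A := Ideal.span {b, c} with hI
  set J : Ideal A := maximalIdeal A * I with hJ
  have hbI : b ∈ I := Ideal.subset_span (by simp)
  have hcI : c ∈ I := Ideal.subset_span (by simp)
  let π := Ideal.Quotient.mk J
  have hz : ∀ x ∈ maximalIdeal A, ∀ y ∈ I, π x * π y = 0 := by
    intro x hx y hy
    rw [← map_mul]
    exact Ideal.Quotient.eq_zero_iff_mem.2 (Ideal.mul_mem_mul hx hy)
  have hmap : π.mapMatrix Sg = !![1 + π a, π b; π c, 1 + π d] := by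
    conv_lhs => rw [eq_of_entries Sg]
    ext i j
    fin_cases i <;> fin_cases j <;> simp [ha, hb, hc, hd]
  have hpow := offdiag_pow (π a) (π b) (π c) (π d) (hz a h00 b hbI) (hz a h00 c hcI)
    (hz d h11 b hbI) (hz d h11 c hcI) (hz b h01 c hcI) s
  have h' := congrArg π.mapMatrix h
  rw [map_mul, map_mul, map_pow, hmap] at h'
  have hdiag : π.mapMatrix (Matrix.diagonal ![α, β]) = Matrix.diagonal ![π α, π β] := by
    ext i j
    fin_cases i <;> fin_cases j <;> simp
  rw [hdiag] at h'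
  have e01 := congrFun (congrFun h' 0) 1
  have e10 := congrFun (congrFun h' 1) 0
  rw [Matrix.diagonal_mul, Matrix.mul_diagonal, hpow.1] at e01
  rw [Matrix.diagonal_mul, Matrix.mul_diagonal, hpow.2] at e10
  simp only [Matrix.of_apply, Matrix.cons_val', Matrix.cons_val_zero, Matrix.cons_val_one,
    Matrix.cons_val_fin_one] at e01 e10
  have hu1 : IsUnit (α - s * β) := by
    have : α - s * β = (α - β) - ((s : A) - 1) * β := by ring
    rw [this]
    by_contra hcon
    have h1 : (α - β) - ((s : A) - 1) * β ∈ maximalIdeal A := (mem_maximalIdeal _).2 hcon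
    have h2 : α - β ∈ maximalIdeal A := by
      have := Ideal.add_mem _ h1 (Ideal.mul_mem_right β _ hs)
      simpa using this
    exact (mem_maximalIdeal _).1 h2 hαβ
  have hu2 : IsUnit (β - s * α) := by
    have : β - s * α = -((α - β) + ((s : A) - 1) * α) := by ring
    rw [this, IsUnit.neg_iff]
    by_contra hcon
    have h1 : (α - β) + ((s : A) - 1) * α ∈ maximalIdeal A := (mem_maximalIdeal _).2 hcon
    have h2 : α - β ∈ maximalIdeal A := by
      have := Ideal.sub_mem _ h1 (Ideal.mul_mem_right α _ hs)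
      simpa using this
    exact (mem_maximalIdeal _).1 h2 hαβ
  have hbJ : b ∈ J := by
    have h1 : π ((α - s * β) * b) = 0 := by
      simp only [map_mul, map_sub, map_natCast]
      linear_combination e01
    have h2 : (α - s * β) * b ∈ J := Ideal.Quotient.eq_zero_iff_mem.1 h1
    exact (Ideal.unit_mul_mem_iff_mem J hu1).1 h2
  have hcJ : c ∈ J := by
    have h1 : π ((β - s * α) * c) = 0 := by
      simp only [map_mul, map_sub, map_natCast]
      linear_combination e10
    have h2 : (β - s * α) * c ∈ J := Ideal.Quotient.eq_zero_iff_mem.1 h1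
    exact (Ideal.unit_mul_mem_iff_mem J hu2).1 h2
  have hIJ : I ≤ maximalIdeal A • I := by
    rw [hI, Ideal.span_le]
    intro x hx
    rcases hx with rfl | hx
    · exact hbJ
    · rw [Set.mem_singleton_iff] at hx
      rw [hx]
      exact hcJ
  have hbot : I = ⊥ :=
    Submodule.eq_bot_of_le_smul_of_le_jacobson_bot (maximalIdeal A) I
      (Submodule.fg_span (Set.toFinite {b, c})) hIJ (IsLocalRing.maximalIdeal_le_jacobson _)
  rw [hbot] at hbI hcI
  exact ⟨hbI, hcI⟩

/-- `Σ = diag(δ, δ')`, `δ ^ s = δ`, `δ' ^ s = δ'`. -/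
theorem diag_of_comm (α β : A) (hα : IsUnit α) (hβ : IsUnit β) (hαβ : IsUnit (α - β))
    (Sg : Matrix (Fin 2) (Fin 2) A) (hSg : (residue A).mapMatrix Sg = 1)
    (s : ℕ) (hs : (s : A) - 1 ∈ maximalIdeal A)
    (h : Matrix.diagonal ![α, β] * Sg = Sg ^ s * Matrix.diagonal ![α, β]) :
    Sg = Matrix.diagonal ![Sg 0 0, Sg 1 1] ∧ Sg 0 0 - 1 ∈ maximalIdeal A ∧
      Sg 1 1 - 1 ∈ maximalIdeal A ∧ Sg 0 0 ^ s = Sg 0 0 ∧ Sg 1 1 ^ s = Sg 1 1 := by
  have e : ∀ i j, residue A (Sg i j) = (1 : Matrix (Fin 2) (Fin 2) (ResidueField A)) i j := by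
    intro i j
    rw [← hSg]
    rfl
  have h00 : Sg 0 0 - 1 ∈ maximalIdeal A := by
    rw [← residue_eq_zero_iff, map_sub, e 0 0]
    simp
  have h11 : Sg 1 1 - 1 ∈ maximalIdeal A := by
    rw [← residue_eq_zero_iff, map_sub, e 1 1]
    simp
  have h01 : Sg 0 1 ∈ maximalIdeal A := by
    rw [← residue_eq_zero_iff, e 0 1]
    simp
  obtain ⟨z01, z10⟩ := offdiag_eq_zero α β hαβ Sg h00 h01 h11 s hs h
  have hd : Sg = Matrix.diagonal ![Sg 0 0, Sg 1 1] := by
    ext i j
    fin_cases i <;> fin_cases j <;> simp [z01, z10]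
  refine ⟨hd, h00, h11, ?_, ?_⟩
  · have h' := h
    rw [hd, Matrix.diagonal_pow, Matrix.diagonal_mul_diagonal, Matrix.diagonal_mul_diagonal] at h'
    have := congrFun (congrFun h' 0) 0
    simp only [Matrix.diagonal_apply_eq, Matrix.cons_val_zero, Pi.pow_apply] at this
    exact (hα.mul_left_cancel (by linear_combination this)).symm
  · have h' := h
    rw [hd, Matrix.diagonal_pow, Matrix.diagonal_mul_diagonal, Matrix.diagonal_mul_diagonal] at h'
    have := congrFun (congrFun h' 1) 1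
    simp only [Matrix.diagonal_apply_eq, Matrix.cons_val_one, Matrix.cons_val_fin_one,
      Pi.pow_apply] at this
    exact (hβ.mul_left_cancel (by linear_combination this)).symm

/-- diagonalisation of a `2 × 2` matrix whose characteristic polynomial has two roots with invertible difference. -/
theorem exists_diagonalize (Ph : Matrix (Fin 2) (Fin 2) A) (α β : A) (hαβ : IsUnit (α - β))
    (htr : Ph.trace = α + β) (hdet : Ph.det = α * β) :
    ∃ P : (Matrix (Fin 2) (Fin 2) A)ˣ,
      Ph * (P : Matrix (Fin 2) (Fin 2) A) = (P : Matrix (Fin 2) (Fin 2) A) * Matrix.diagonal ![α, β] := by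
  rw [Matrix.trace_fin_two] at htr
  rw [Matrix.det_fin_two] at hdet
  set x := Ph 0 0 with hx
  set y := Ph 0 1 with hy
  set z := Ph 1 0 with hz
  set w := Ph 1 1 with hw
  have hPh : Ph = !![x, y; z, w] := by
    ext i j
    fin_cases i <;> fin_cases j <;> simp [hx, hy, hz, hw]
  have hsum : IsUnit ((x - β) + (α - x)) := by
    have : (x - β) + (α - x) = α - β := by ring
    rw [this]; exact hαβ
  rcases IsLocalRing.isUnit_or_isUnit_of_isUnit_add hsum with hu | hu
  · have hdetP : IsUnit (!![x - β, y; z, w - α] : Matrix (Fin 2) (Fin 2) A).det := by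
      rw [Matrix.det_fin_two_of]
      have : (x - β) * (w - α) - y * z = -((x - β) * (α - β)) := by
        linear_combination hdet - β * htr
      rw [this, IsUnit.neg_iff]
      exact hu.mul hαβ
    obtain ⟨P, hP⟩ := (Matrix.isUnit_iff_isUnit_det _).2 hdetP
    refine ⟨P, ?_⟩
    rw [hP, hPh]
    ext i j
    fin_cases i <;> fin_cases j <;>
      simp only [Matrix.mul_apply, Fin.sum_univ_two, Matrix.of_apply, Matrix.cons_val',
        Matrix.cons_val_zero, Matrix.cons_val_one, Matrix.cons_val_fin_one, Fin.zero_eta, Fin.mk_one,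
        Fin.isValue, Matrix.diagonal_apply_eq, Matrix.diagonal_apply_ne, ne_eq, zero_ne_one,
        one_ne_zero, not_false_eq_true, mul_zero, add_zero, zero_add]
    · linear_combination x * htr - hdet
    · linear_combination y * htr
    · linear_combination z * htr
    · linear_combination w * htr - hdet
  · have hdetP : IsUnit (!![y, x - α; w - β, z] : Matrix (Fin 2) (Fin 2) A).det := by
      rw [Matrix.det_fin_two_of]
      have : y * z - (x - α) * (w - β) = (α - x) * (α - β) := by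
        linear_combination α * htr - hdet
      rw [this]
      exact hu.mul hαβ
    obtain ⟨P, hP⟩ := (Matrix.isUnit_iff_isUnit_det _).2 hdetP
    refine ⟨P, ?_⟩
    rw [hP, hPh]
    ext i j
    fin_cases i <;> fin_cases j <;>
      simp only [Matrix.mul_apply, Fin.sum_univ_two, Matrix.of_apply, Matrix.cons_val',
        Matrix.cons_val_zero, Matrix.cons_val_one, Matrix.cons_val_fin_one, Fin.zero_eta, Fin.mk_one,
        Fin.isValue, Matrix.diagonal_apply_eq, Matrix.diagonal_apply_ne, ne_eq, zero_ne_one,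
        one_ne_zero, not_false_eq_true, mul_zero, add_zero, zero_add]
    · linear_combination y * htr
    · linear_combination x * htr - hdet
    · linear_combination w * htr - hdet
    · linear_combination z * htr

/-- **The local structure at a Taylor-Wiles prime.**  `Ph = ρ(φ)`, `Sg = ρ(σ)`, `φ σ φ⁻¹ = σ ^ s`. -/
theorem tw_local (Ph Sg : Matrix (Fin 2) (Fin 2) A) (α β : A) (hα : IsUnit α) (hβ : IsUnit β)
    (hαβ : IsUnit (α - β)) (htr : Ph.trace = α + β) (hdet : Ph.det = α * β)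
    (hSg : (residue A).mapMatrix Sg = 1) (s : ℕ) (hs : (s : A) - 1 ∈ maximalIdeal A)
    (h : Ph * Sg = Sg ^ s * Ph) :
    ∃ (P : (Matrix (Fin 2) (Fin 2) A)ˣ) (δ δ' : A),
      Ph * (P : Matrix (Fin 2) (Fin 2) A) = (P : Matrix (Fin 2) (Fin 2) A) * Matrix.diagonal ![α, β] ∧
      Sg * (P : Matrix (Fin 2) (Fin 2) A) = (P : Matrix (Fin 2) (Fin 2) A) * Matrix.diagonal ![δ, δ'] ∧
      δ - 1 ∈ maximalIdeal A ∧ δ' - 1 ∈ maximalIdeal A ∧ δ ^ s = δ ∧ δ' ^ s = δ' ∧
      Sg.det = δ * δ' := by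
  obtain ⟨P, hP⟩ := exists_diagonalize Ph α β hαβ htr hdet
  set Pi : Matrix (Fin 2) (Fin 2) A := ((P⁻¹ : (Matrix (Fin 2) (Fin 2) A)ˣ) : Matrix (Fin 2) (Fin 2) A)
    with hPi
  set Pm : Matrix (Fin 2) (Fin 2) A := (P : Matrix (Fin 2) (Fin 2) A) with hPm
  have h1 : Pi * Pm = 1 := P.inv_mul
  have h2 : Pm * Pi = 1 := P.mul_inv
  set S' := Pi * Sg * Pm with hS'
  have hD : Matrix.diagonal ![α, β] = Pi * Ph * Pm := by
    rw [mul_assoc, hP, ← mul_assoc, h1, one_mul]
  have hpow : S' ^ s = Pi * Sg ^ s * Pm := Units.conj_pow' P Sg s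
  have hcomm : Matrix.diagonal ![α, β] * S' = S' ^ s * Matrix.diagonal ![α, β] := by
    rw [hD, hpow, hS']
    calc Pi * Ph * Pm * (Pi * Sg * Pm) = Pi * Ph * (Pm * Pi) * Sg * Pm := by
          simp only [mul_assoc]
      _ = Pi * (Ph * Sg) * Pm := by rw [h2, mul_one]; simp only [mul_assoc]
      _ = Pi * (Sg ^ s * Ph) * Pm := by rw [h]
      _ = Pi * Sg ^ s * (Pm * Pi) * Ph * Pm := by rw [h2, mul_one]; simp only [mul_assoc]
      _ = Pi * Sg ^ s * Pm * (Pi * Ph * Pm) := by simp only [mul_assoc]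
  have hres : (residue A).mapMatrix S' = 1 := by
    rw [hS', map_mul, map_mul, hSg, mul_one, ← map_mul, h1, map_one]
  obtain ⟨hd, e0, e1, p0, p1⟩ := diag_of_comm α β hα hβ hαβ S' hres s hs hcomm
  refine ⟨P, S' 0 0, S' 1 1, hP, ?_, e0, e1, p0, p1, ?_⟩
  · rw [← hd, hS', ← mul_assoc, ← mul_assoc, h2, one_mul]
  · have hdetS : S'.det = Sg.det := by
      rw [hS', Matrix.det_mul, Matrix.det_mul, mul_right_comm, ← Matrix.det_mul, h1, Matrix.det_one,
        one_mul]
    rw [← hdetS]
    conv_lhs => rw [hd]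
    rw [Matrix.det_diagonal, Fin.prod_univ_two]
    simp

/-- `δ ^ (s - 1) = 1`. -/
theorem pow_pred_eq_one {δ : A} (hδ : δ - 1 ∈ maximalIdeal A) {s : ℕ} (hs : 0 < s)
    (h : δ ^ s = δ) : δ ^ (s - 1) = 1 := by
  have hu : IsUnit δ := by
    by_contra hcon
    have h1 : δ ∈ maximalIdeal A := (mem_maximalIdeal _).2 hcon
    have h2 : (1 : A) ∈ maximalIdeal A := by
      have := Ideal.sub_mem _ h1 hδ
      simpa using this
    exact (Ideal.ne_top_iff_one _).1 (maximalIdeal.isMaximal A).ne_top h2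
  apply hu.mul_left_cancel
  rw [mul_one, ← pow_succ', Nat.sub_add_cancel hs, h]

end Fermat.Agent.S43.Import.Hensel
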